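import Fermat.Statements.S27
import Fermat.Agent.S27.B.Main
import Fermat.Agent.S27.C.Main
import Fermat.Agent.S27.Gen.EmbedComplex
import Fermat.Agent.S27.Gen.TrdegKaehler

set_option autoImplicit false
set_option autoImplicit false
open AlgebraicCurve
open AlgebraicCurve AlgebraicCurve.Pic0

namespace Fermat.Agent.S27

open Fermat.Agent.S26 in
theorem card_torsion_of_ff1 (K F : Type*) [Field K] [Field F] [Algebra K F] [IsAlgClosed K] [CharZero K]
    [FF1 K F] (n : ℕ) (hn : 0 < n) :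
    Nat.card (Pic0.torsion K F n) = n ^ (2 * genusFF K F) := by
  obtain ⟨K₀, F₀, _, _, _, _, _, _, _, _, hac, hcount, hff, hce⟩ := exists_descent K F
  haveI : CharZero K₀ := (algebraMap K₀ K).charZero_iff (algebraMap K₀ K).injective |>.mpr inferInstance
  obtain ⟨j⟩ := nonempty_ringHom_complex_of_countable K₀
  letI : Algebra K₀ ℂ := j.toAlgebra
  obtain ⟨F₁, _, _, _, _, _, _, hce₁⟩ := exists_constExt K₀ F₀ ℂ
  haveI : FF1 ℂ F₁ := ff1_of_isConstExt K₀ F₀ ℂ F₁
  rw [card_torsion_eq_of_isConstExt K₀ F₀ K F n hn, genusFF_eq_of_isConstExt K₀ F₀ K F,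
    ← card_torsion_eq_of_isConstExt K₀ F₀ ℂ F₁ n hn, ← genusFF_eq_of_isConstExt K₀ F₀ ℂ F₁]
  exact card_torsion_complex F₁ n hn

theorem main
    (K F : Type*) [Field K] [Field F] [Algebra K F] [IsAlgClosed K] [CharZero K]
    [IsCurveOver K F] [Algebra.EssFiniteType K F]
    (ℓ : ℕ) [Fact ℓ.Prime] (k : ℕ) :
    Nat.card (Pic0.torsion K F (ℓ ^ k)) = ℓ ^ (2 * genusFF K F * k) := by
  haveI : Fermat.Agent.S26.FF1 K F :=
    ⟨inferInstance, trdeg_eq_one_of_finrank_kaehler K F IsCurveOver.finrank_kaehler⟩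
  rw [card_torsion_of_ff1 K F (ℓ ^ k) (pow_pos (Fact.out : ℓ.Prime).pos k), ← pow_mul]
  congr 1
  ring

end Fermat.Agent.S27
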