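import Mathlib
import Fermat.Prelude.Def_AlgebraicCurve_DivisorClassGroup
import Fermat.Prelude.Def_AlgebraicCurve_IsCurveOver
import Fermat.Prelude.Def_AlgebraicCurve_Repartitions
import Fermat.Agent.S24.FF.PlaceBasic
import Fermat.Agent.S26.FF.Defs

/-! # S27 : basic definitions

Standing assumptions of the whole project (Parts A, B, C):
`[Field K] [Field F] [Algebra K F] [IsAlgClosed K] [CharZero K] [FF1 K F]`
where `FF1 = Fermat.Agent.S26.FF1` (finitely generated of transcendence degree one).

We reuse: the Prelude (`Place`, `ord`, `Divisor`, `Divisor.degree`, `Pic0`, `repartitions`, `H1`, `genusFF`),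
`Fermat.Agent.S24.FF.*` (general lemmas on `ord`; sum formula; `d/dπ` preserves `O_v`),
`Fermat.Agent.S26.FF.*` (`FF1`, `LSpace`, `divisorOf`, weak approximation, Riemann's theorem). -/

set_option autoImplicit false

namespace Fermat.Agent.S27

open AlgebraicCurve
open Fermat.Agent.S26

variable {K F : Type*} [Field K] [Field F] [Algebra K F]

/-- `f` vanishes to order `≥ n` at `v` (`f = 0` allowed; recall `v.ord 0 = 0` is junk). -/
def OrdGE (v : Place K F) (n : ℤ) (f : F) : Prop := f = 0 ∨ n ≤ v.ord f

open Classical in
/-- The value `f(v) ∈ K` of `f` at the place `v` (junk value `0` if `f` has a pole at `v`). -/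
noncomputable def val (v : Place K F) (f : F) : K :=
  if h : ∃ c : K, OrdGE v 1 (f - algebraMap K F c) then h.choose else 0

open Classical in
/-- The derivation `d/dt` of `F/K` (junk `0` if there is none, i.e. if `t` is a constant). -/
noncomputable def dd (t : F) : Derivation K F F :=
  if h : ∃ δ : Derivation K F F, δ t = 1 then h.choose else 0

/-- A chosen uniformizer. -/
noncomputable def unif (v : Place K F) : F := (Fermat.Agent.S24.FF.exists_ord_eq_one v).choose

theorem ord_unif (v : Place K F) : v.ord (unif v) = 1 :=
  (Fermat.Agent.S24.FF.exists_ord_eq_one v).choose_spec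

/-- The order of the differential `dx` at `v`. -/
noncomputable def ordDx (x : F) (v : Place K F) : ℤ := v.ord (dd (K := K) (unif v) x)

/-- `Ω(D) = {ω dx | div (ω dx) ≥ D}`, as a space of functions `ω` (`x` a fixed separating variable). -/
def Omega (x : F) (D : Divisor K F) : Submodule K F where
  carrier := {ω | ω = 0 ∨ ∀ v : Place K F, D v ≤ v.ord ω + ordDx x v}
  zero_mem' := Or.inl rfl
  add_mem' := by
    rintro f g hf hg
    by_cases hf0 : f = 0
    · simpa [hf0] using hg
    by_cases hg0 : g = 0
    · simpa [hg0] using hf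
    by_cases hfg : f + g = 0
    · exact Or.inl hfg
    refine Or.inr fun v => ?_
    have h1 := (hf.resolve_left hf0) v
    have h2 := (hg.resolve_left hg0) v
    have h3 := Fermat.Agent.S24.FF.ord_add v hf0 hg0 hfg
    omega
  smul_mem' := by
    rintro c f hf
    by_cases hc : c = 0
    · left; simp [hc]
    by_cases hf0 : f = 0
    · left; simp [hf0]
    refine Or.inr fun v => ?_
    have h1 := (hf.resolve_left hf0) v
    have hc' : algebraMap K F c ≠ 0 := by simpa using hc
    rw [Algebra.smul_def, v.ord_mul hc' hf0, Fermat.Agent.S24.FF.ord_algebraMap]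
    simpa using h1

theorem mem_Omega {x : F} {D : Divisor K F} {ω : F} :
    ω ∈ Omega x D ↔ ω = 0 ∨ ∀ v : Place K F, D v ≤ v.ord ω + ordDx x v := Iff.rfl

/-- The divisor `∑ i, R i` of a finite family of places. -/
noncomputable def sumDiv {ι : Type*} [Fintype ι] (R : ι → Place K F) : Divisor K F :=
  ∑ i, Finsupp.single (R i) 1

end Fermat.Agent.S27
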